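import Fermat.Prelude.Def_CuspForm_HeckeLocal
import Fermat.Prelude.Def_CuspForm_HeckeEvalForms
import Fermat.Prelude.Def_HeckeGalois_EichlerShimura
import Fermat.Prelude.Def_ModularCurve_ModularUnit

set_option autoImplicit false

/-!
# S16: assembly of the index of the Eisenstein ideal from the four interface statements
(helper16, S16 coordinator)

`card_quotient_eq_of_interface` derives the frozen statement from
* `hA` (RED-A): the cardinality of `T ⧸ I` from the description of `{k | k • 1 ∈ I}`;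
* `hB` (RED-B): duality, a cusp form congruent to the Eisenstein series modulo `m`;
* `hL` (LOWER + RED-C): `k • 1 ∈ I → n ∣ k`;
* `hU` (UPPER): a cusp form congruent to the Eisenstein series modulo `m` forces `m ∣ n`.
-/

namespace Fermat.Agent.S16.H16

open ModularCurve CuspForm

/-- The map of the frozen statement. -/
noncomputable abbrev rho (p : ℕ) [Fact p.Prime] : HeckeAlg →+* ↥(heckeLatticeAlgebra p ∅) :=
  (latticeRestrictHom p ∅).toRingHom.comp (heckeEvalForms p 2)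

/-- The Eisenstein evaluation `X_ℓ ↦ 1 + ℓ` (`ℓ ≠ p`), `X_p ↦ 1`. -/
noncomputable abbrev eps (p : ℕ) : HeckeAlg →ₐ[ℤ] ℤ :=
  MvPolynomial.aeval (eisensteinSystem p)

/-- `σ'(k)`: the sum of the divisors of `k` prime to `p`. -/
def sigmaPrime (p k : ℕ) : ℤ := ∑ d ∈ k.divisors.filter (fun d => ¬ p ∣ d), (d : ℤ)

theorem eisensteinNumerator_ne_zero (p : ℕ) [hp : Fact p.Prime] : eisensteinNumerator p ≠ 0 := by
  unfold eisensteinNumerator
  have h1 : 0 < p - 1 := by have := hp.out.two_le; omega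
  have hd : Nat.gcd (p - 1) 12 ∣ p - 1 := Nat.gcd_dvd_left _ _
  exact (Nat.div_pos (Nat.le_of_dvd h1 hd) (Nat.gcd_pos_of_pos_left _ h1)).ne'

/-- If `P` acts as zero then `eps P • 1` lies in the image of the Eisenstein ideal. -/
theorem algebraMap_eps_mem (p : ℕ) [Fact p.Prime] (P : HeckeAlg) (hP : rho p P = 0) :
    algebraMap ℤ ↥(heckeLatticeAlgebra p ∅) (eps p P) ∈
      Ideal.map (rho p) (eisensteinIdeal p) := by
  have hmem : P - MvPolynomial.C (eps p P) ∈ eisensteinIdeal p := by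
    rw [eisensteinIdeal, mem_eigenIdeal_iff, map_sub, MvPolynomial.aeval_C]
    simp
  have := Ideal.mem_map_of_mem (rho p) hmem
  rw [map_sub, hP, zero_sub] at this
  have h2 : rho p (MvPolynomial.C (eps p P)) =
      algebraMap ℤ ↥(heckeLatticeAlgebra p ∅) (eps p P) := by
    rw [show (MvPolynomial.C (eps p P) : HeckeAlg) = ((eps p P : ℤ) : HeckeAlg) from
      (eq_intCast MvPolynomial.C _), map_intCast]
    simp
  rw [h2] at this
  exact (Ideal.neg_mem_iff _).mp this

/-- **Assembly.** The frozen statement of S16 from the four interface statements. -/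
theorem card_quotient_eq_of_interface (p : ℕ) [Fact p.Prime]
    (hA : ∀ n : ℕ, n ≠ 0 →
      (∀ k : ℤ, algebraMap ℤ ↥(heckeLatticeAlgebra p ∅) k ∈
        Ideal.map (rho p) (eisensteinIdeal p) ↔ (n : ℤ) ∣ k) →
      Nat.card (↥(heckeLatticeAlgebra p ∅) ⧸ Ideal.map (rho p) (eisensteinIdeal p)) = n)
    (hB : ∀ m : ℕ, (∀ P : HeckeAlg, rho p P = 0 → (m : ℤ) ∣ eps p P) →
      ∃ f : CuspForm (CongruenceSubgroup.Gamma0 p) 2, ∀ k : ℕ, 0 < k →
        ∃ a : ℤ, ModularFormClass.qCoeff f k = (a : ℂ) ∧ (m : ℤ) ∣ a - sigmaPrime p k)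
    (hL : ∀ k : ℤ, algebraMap ℤ ↥(heckeLatticeAlgebra p ∅) k ∈
        Ideal.map (rho p) (eisensteinIdeal p) → (eisensteinNumerator p : ℤ) ∣ k)
    (hU : ∀ (m : ℕ) (f : CuspForm (CongruenceSubgroup.Gamma0 p) 2),
      (∀ k : ℕ, 0 < k → ∃ a : ℤ, ModularFormClass.qCoeff f k = (a : ℂ) ∧
        (m : ℤ) ∣ a - sigmaPrime p k) → m ∣ eisensteinNumerator p) :
    Nat.card (↥(heckeLatticeAlgebra p ∅) ⧸
        Ideal.map ((latticeRestrictHom p ∅).toRingHom.comp (heckeEvalForms p 2))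
          (eisensteinIdeal p)) =
      eisensteinNumerator p := by
  set I := Ideal.map (rho p) (eisensteinIdeal p) with hI
  -- the ideal `J = {k | k • 1 ∈ I}` of `ℤ`
  set J : Ideal ℤ := Ideal.comap (algebraMap ℤ ↥(heckeLatticeAlgebra p ∅)) I with hJ
  obtain ⟨m, hm⟩ : ∃ m : ℕ, J = Ideal.span {(m : ℤ)} := by
    refine ⟨(Submodule.IsPrincipal.generator J).natAbs, ?_⟩
    rw [Int.span_natAbs, Ideal.span_singleton_generator]
  have hmem : ∀ k : ℤ, algebraMap ℤ ↥(heckeLatticeAlgebra p ∅) k ∈ I ↔ (m : ℤ) ∣ k := by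
    intro k
    rw [← Ideal.mem_comap, ← hJ, hm, Ideal.mem_span_singleton]
  have hm' : ∀ P : HeckeAlg, rho p P = 0 → (m : ℤ) ∣ eps p P := fun P hP =>
    (hmem _).mp (algebraMap_eps_mem p P hP)
  obtain ⟨f, hf⟩ := hB m hm'
  have hmn : m ∣ eisensteinNumerator p := hU m f hf
  have hn : algebraMap ℤ ↥(heckeLatticeAlgebra p ∅) (eisensteinNumerator p : ℤ) ∈ I :=
    (hmem _).mpr (Int.natCast_dvd_natCast.mpr hmn)
  refine hA _ (eisensteinNumerator_ne_zero p) fun k => ⟨hL k, ?_⟩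
  rintro ⟨j, rfl⟩
  rw [map_mul]
  exact Ideal.mul_mem_right _ _ hn

end Fermat.Agent.S16.H16
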