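import Fermat.Prelude.Def_CuspForm_HeckeLocal
import Fermat.Prelude.Def_ModularCurve_ModularUnit
import Fermat.Prelude.Thm_ModularForm_sturm_bound_Gamma0
import Fermat.Prelude.Thm_CongruenceSubgroup_one_mem_strictPeriods_Gamma0
import Fermat.Agent.S20.H69.Index

set_option autoImplicit false

/-!
# S16, the primes `p = 2, 3` (helper16)

`S₂(Γ₀(p)) = 0` for `p ≤ 3` (Sturm bound `0`), hence the UPPER statement of S16 is trivial there:
a cusp form congruent to the Eisenstein series modulo `m` has `m ∣ σ'(1) = 1`.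
-/

namespace Fermat.Agent.S16.H16

open ModularCurve CuspForm

theorem sum_divisors_one_filter (p : ℕ) (hp : 1 < p) :
    ∑ d ∈ (1 : ℕ).divisors.filter (fun d => ¬ p ∣ d), (d : ℤ) = 1 := by
  have h : ¬ p ∣ 1 := fun h => by
    have := Nat.le_of_dvd one_pos h
    omega
  rw [Nat.divisors_one, Finset.filter_singleton, if_pos h]
  simp

theorem dedekindPsi_prime (p : ℕ) (hp : p.Prime) : dedekindPsi p = p + 1 := by
  rw [dedekindPsi, hp.divisors, Finset.sum_filter, Finset.sum_pair hp.one_lt.ne,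
    if_pos squarefree_one, if_pos hp.prime.squarefree, Nat.div_one, Nat.div_self hp.pos, add_comm]

/-- Every weight-2 cusp form of level `Γ₀(p)`, `p ≤ 3` prime, is zero. -/
theorem cuspForm_eq_zero_of_le_three (p : ℕ) [hp : Fact p.Prime] (h3 : p ≤ 3)
    (f : CuspForm (CongruenceSubgroup.Gamma0 p) 2) : f = 0 := by
  have hidx : (CongruenceSubgroup.Gamma0 p).index ≤ 4 := by
    rw [Fermat.Agent.S20.H69.index_Gamma0 p, dedekindPsi_prime p hp.out]
    omega
  have hF : ModularFormClass.modularForm f = 0 := by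
    apply ModularForm.sturm_bound_Gamma0 p
    intro n hn
    have hn0 : n = 0 := by
      have : (2 * ((CongruenceSubgroup.Gamma0 p).index : ℤ)).toNat / 12 = 0 := by
        omega
      omega
    subst hn0
    exact CuspFormClass.qExpansion_coeff_zero f one_pos
      (CongruenceSubgroup.one_mem_strictPeriods_Gamma0 p)
  ext z
  have := congrArg (fun g : ModularForm _ _ => g z) hF
  simpa using this

/-- UPPER for `p ≤ 3`. -/
theorem upper_of_le_three (p : ℕ) [hp : Fact p.Prime] (h3 : p ≤ 3) (m : ℕ)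
    (f : CuspForm (CongruenceSubgroup.Gamma0 p) 2)
    (hf : ∀ k : ℕ, 0 < k → ∃ a : ℤ, ModularFormClass.qCoeff f k = (a : ℂ) ∧
      (m : ℤ) ∣ a - ∑ d ∈ k.divisors.filter (fun d => ¬ p ∣ d), (d : ℤ)) :
    m ∣ eisensteinNumerator p := by
  obtain ⟨a, ha, hdvd⟩ := hf 1 one_pos
  have hf0 := cuspForm_eq_zero_of_le_three p h3 f
  subst hf0
  have h0 : ModularFormClass.qCoeff ((0 : CuspForm (CongruenceSubgroup.Gamma0 p) 2) : UpperHalfPlane → ℂ) 1 = 0 := by
    rw [ModularFormClass.qCoeff]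
    have : ((0 : CuspForm (CongruenceSubgroup.Gamma0 p) 2) : UpperHalfPlane → ℂ) = 0 := rfl
    rw [this, UpperHalfPlane.qExpansion_zero]
    simp
  rw [h0] at ha
  have ha0 : a = 0 := by exact_mod_cast ha.symm
  rw [ha0, sum_divisors_one_filter p hp.out.one_lt, zero_sub] at hdvd
  have h1 : (m : ℤ) ∣ 1 := (dvd_neg).mp hdvd
  have : m = 1 := by
    have := Int.natCast_dvd_natCast.mp (show ((m : ℕ) : ℤ) ∣ ((1 : ℕ) : ℤ) by simpa using h1)
    exact Nat.dvd_one.mp this
  rw [this]
  exact one_dvd _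

end Fermat.Agent.S16.H16
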